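import Fermat.Agent.Lib.RR.Duality
import Fermat.Agent.S17.H890.Val
import Fermat.Agent.S17.H617.HWallDefs

/-!
# S17 / tower H / leaf G-PT (helper77): points and coordinates — abstract part

`FF1 K F`, a place `∞`, and a basis `x₀ = 1, x₁, …, x_r` of `L(m∞)` ADAPTED to the pole order at `∞`
(`x_i ∈ L((m-1)∞)` for `i < r`, `x_r ∉ L((m-1)∞)`).

* `PtData.coord P` : the coordinate vector of a place: the values `(x_i(P))_i` for `P ≠ ∞`
  (so `coord P 0 = 1`), and `e_r` for `P = ∞`;
* `PtData.isVal_lin` : `Σ a_i x_i` has the value `⟨a, coord P⟩` at `P ≠ ∞`;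
* `PtData.hyp_pos_iff` : `P ∈ Z_a ↔ ⟨a, coord P⟩ = 0` (all `P`, including `∞`);
* `PtData.mult`, `mult_sum`, `mult_ne_zero_iff` : the hyperplane section as a finitely supported
  `ℕ`-valued function.
-/

set_option autoImplicit false

noncomputable section

namespace Fermat.Agent.S17.H77

open AlgebraicCurve Fermat.Agent.Lib.RR Fermat.Agent.S17.H890 Fermat.Agent.S17.HWall

/-- A basis of `L(m∞)` adapted to the pole order filtration at `∞`, starting with `1`. -/
structure PtData (K F : Type*) [Field K] [Field F] [Algebra K F] [FF1 K F] where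
  /-- the point at infinity -/
  vinf : Place K F
  /-- the degree -/
  m : ℕ
  /-- the dimension of the ambient projective space -/
  r : ℕ
  /-- the basis -/
  x : Fin (r + 1) → F
  r_pos : 0 < r
  m_pos : 0 < m
  x_zero : x 0 = 1
  x_li : LinearIndependent K x
  x_span : Submodule.span K (Set.range x) = riemannRochSpace (m • prim vinf)
  x_low : ∀ i, i ≠ Fin.last r → x i ∈ riemannRochSpace ((m - 1) • prim vinf)
  x_top : x (Fin.last r) ∉ riemannRochSpace ((m - 1) • prim vinf)

variable {K F : Type*} [Field K] [Field F] [Algebra K F] [FF1 K F]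

namespace PtData

variable (E : PtData K F)

theorem zero_ne_last : (0 : Fin (E.r + 1)) ≠ Fin.last E.r := by
  intro h
  have := congrArg Fin.val h
  simp at this
  have := E.r_pos
  omega

theorem x_mem (i : Fin (E.r + 1)) : E.x i ∈ riemannRochSpace (E.m • prim E.vinf) := by
  rw [← E.x_span]
  exact Submodule.subset_span ⟨i, rfl⟩

theorem lin_mem' (a : Fin (E.r + 1) → K) :
    lin E.x a ∈ riemannRochSpace (E.m • prim E.vinf) := by
  unfold lin
  exact Submodule.sum_mem _ fun i _ => Submodule.smul_mem _ _ (E.x_mem i)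

theorem lin_ne_zero' {a : Fin (E.r + 1) → K} (ha : a ≠ 0) : lin E.x a ≠ 0 := by
  intro h
  apply ha
  exact funext (Fintype.linearIndependent_iff.mp E.x_li a h)

theorem nsmul_prim_apply_of_ne (n : ℕ) {P : Place K F} (hP : P ≠ E.vinf) :
    (n • prim E.vinf : Divisor K F) P = 0 := by
  rw [Finsupp.smul_apply, prim_apply_of_ne hP, smul_zero]

theorem nsmul_prim_apply_self (n : ℕ) :
    (n • prim E.vinf : Divisor K F) E.vinf = n := by
  rw [Finsupp.smul_apply]
  unfold prim
  rw [Finsupp.single_eq_same]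
  simp

/-- functions of `L(m∞)` are regular away from `∞` -/
theorem regular_of_mem {f : F} {n : ℕ} (hf : f ∈ riemannRochSpace (n • prim E.vinf))
    {P : Place K F} (hP : P ≠ E.vinf) : f = 0 ∨ 0 ≤ P.ord f := by
  rcases (mem_L_iff.mp hf) P with h | h
  · exact Or.inl h
  · right
    rw [E.nsmul_prim_apply_of_ne n hP] at h
    simpa using h

open Classical in
/-- The coordinate vector of a place. -/
def coord (P : Place K F) : Fin (E.r + 1) → K :=
  if P = E.vinf then Pi.single (Fin.last E.r) 1 else fun i => pval P (E.x i)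

theorem coord_inf : E.coord E.vinf = Pi.single (Fin.last E.r) 1 := by
  unfold coord
  rw [if_pos rfl]

theorem coord_of_ne {P : Place K F} (hP : P ≠ E.vinf) (i : Fin (E.r + 1)) :
    E.coord P i = pval P (E.x i) := by
  unfold coord
  rw [if_neg hP]

theorem coord_zero {P : Place K F} (hP : P ≠ E.vinf) : E.coord P 0 = 1 := by
  rw [E.coord_of_ne hP, E.x_zero]
  have := pval_const P (1 : K)
  rwa [map_one] at this

theorem isVal_x {P : Place K F} (hP : P ≠ E.vinf) (i : Fin (E.r + 1)) :
    IsVal P (E.x i) (E.coord P i) := by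
  rw [E.coord_of_ne hP]
  exact isVal_pval_of_ord_nonneg P (deg_eq_one P) (E.regular_of_mem (E.x_mem i) hP)

omit [FF1 K F] in
theorem isVal_sum {ι : Type*} (P : Place K F) (s : Finset ι) (f : ι → F) (b : ι → K)
    (h : ∀ i ∈ s, IsVal P (f i) (b i)) : IsVal P (∑ i ∈ s, f i) (∑ i ∈ s, b i) := by
  classical
  induction s using Finset.induction_on with
  | empty => simpa using isVal_zero P
  | insert j s hj ih =>
    rw [Finset.sum_insert hj, Finset.sum_insert hj]
    exact (h j (Finset.mem_insert_self j s)).add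
      (ih fun i hi => h i (Finset.mem_insert_of_mem hi))

/-- `Σ a_i x_i` has the value `⟨a, coord P⟩` at a finite place. -/
theorem isVal_lin {P : Place K F} (hP : P ≠ E.vinf) (a : Fin (E.r + 1) → K) :
    IsVal P (lin E.x a) (dot a (E.coord P)) := by
  unfold lin dot dotProduct
  refine isVal_sum P _ _ _ fun i _ => ?_
  rw [Algebra.smul_def]
  exact (isVal_const P (a i)).mul (E.isVal_x hP i)

theorem hypDiv_eq {a : Fin (E.r + 1) → K} (ha : a ≠ 0) :
    hypDiv E.vinf E.m E.x a = divOf (lin E.x a) (E.lin_ne_zero' ha) + E.m • prim E.vinf := by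
  unfold hypDiv
  rw [dif_neg (E.lin_ne_zero' ha)]

theorem hypDiv_zero : hypDiv E.vinf E.m E.x (0 : Fin (E.r + 1) → K) = 0 := by
  unfold hypDiv
  rw [dif_pos (by simp [lin])]

theorem hypDiv_apply {a : Fin (E.r + 1) → K} (ha : a ≠ 0) (P : Place K F) :
    hypDiv E.vinf E.m E.x a P = P.ord (lin E.x a) + (E.m • prim E.vinf : Divisor K F) P := by
  rw [E.hypDiv_eq ha, Finsupp.add_apply, divOf_apply]

theorem hypDiv_nonneg (a : Fin (E.r + 1) → K) : 0 ≤ hypDiv E.vinf E.m E.x a := by
  by_cases ha : a = 0
  · subst ha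
    rw [E.hypDiv_zero]
  · rw [Finsupp.le_def]
    intro P
    rw [E.hypDiv_apply ha P, Finsupp.coe_zero, Pi.zero_apply]
    rcases (mem_L_iff.mp (E.lin_mem' a)) P with h | h
    · exact absurd h (E.lin_ne_zero' ha)
    · linarith

theorem degree_hypDiv {a : Fin (E.r + 1) → K} (ha : a ≠ 0) :
    Divisor.degree (hypDiv E.vinf E.m E.x a) = E.m := by
  rw [E.hypDiv_eq ha, map_add, degree_divOf, zero_add, map_nsmul,
    degree_prim _ (deg_eq_one _)]
  simp

/-- the part of `Σ a_i x_i` of pole order `< m` -/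
theorem lin_sub_top_mem (a : Fin (E.r + 1) → K) :
    lin E.x a - a (Fin.last E.r) • E.x (Fin.last E.r)
      ∈ riemannRochSpace ((E.m - 1) • prim E.vinf) := by
  classical
  unfold lin
  rw [← Finset.sum_erase_add _ _ (Finset.mem_univ (Fin.last E.r)), add_sub_cancel_right]
  refine Submodule.sum_mem _ fun i hi => Submodule.smul_mem _ _ (E.x_low i ?_)
  exact (Finset.mem_erase.mp hi).1

/-- `Σ a_i x_i ∈ L((m-1)∞)` iff `a_r = 0`. -/
theorem lin_mem_low_iff (a : Fin (E.r + 1) → K) :
    lin E.x a ∈ riemannRochSpace ((E.m - 1) • prim E.vinf) ↔ a (Fin.last E.r) = 0 := by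
  constructor
  · intro h
    by_contra h0
    have h1 := Submodule.sub_mem _ h (E.lin_sub_top_mem a)
    rw [sub_sub_cancel] at h1
    have h2 := Submodule.smul_mem _ (a (Fin.last E.r))⁻¹ h1
    rw [smul_smul, inv_mul_cancel₀ h0, one_smul] at h2
    exact E.x_top h2
  · intro h
    have h1 := E.lin_sub_top_mem a
    rwa [h, zero_smul, sub_zero] at h1

/-- **the points of the hyperplane section**: `P ∈ Z_a ↔ ⟨a, coord P⟩ = 0`. -/
theorem hyp_pos_iff {a : Fin (E.r + 1) → K} (ha : a ≠ 0) (P : Place K F) :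
    0 < hypDiv E.vinf E.m E.x a P ↔ dot a (E.coord P) = 0 := by
  have hne := E.lin_ne_zero' ha
  rw [E.hypDiv_apply ha P]
  by_cases hP : P = E.vinf
  · subst hP
    rw [E.nsmul_prim_apply_self, E.coord_inf]
    have hdot : dot a (Pi.single (Fin.last E.r) (1 : K)) = a (Fin.last E.r) := by
      unfold dot
      rw [dotProduct_single, mul_one]
    rw [hdot, ← E.lin_mem_low_iff a, mem_L_iff]
    constructor
    · intro h v
      right
      by_cases hv : v = E.vinf
      · subst hv
        rw [E.nsmul_prim_apply_self]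
        have hm := E.m_pos
        push_cast [Nat.cast_sub hm]
        omega
      · rw [E.nsmul_prim_apply_of_ne _ hv]
        rcases E.regular_of_mem (E.lin_mem' a) hv with h1 | h1
        · exact absurd h1 hne
        · simpa using h1
    · intro h
      rcases h E.vinf with h1 | h1
      · exact absurd h1 hne
      · rw [E.nsmul_prim_apply_self] at h1
        have hm := E.m_pos
        push_cast [Nat.cast_sub hm] at h1
        omega
  · rw [E.nsmul_prim_apply_of_ne _ hP, add_zero]
    have hval := E.isVal_lin hP a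
    constructor
    · intro h
      exact hval.unique (isVal_of_ord_pos P h)
    · intro h
      rw [h, isVal_zero_iff] at hval
      rcases hval with h1 | h1
      · exact absurd h1 hne
      · exact h1

open Classical in
/-- The hyperplane section `Z_a` as a finitely supported `ℕ`-valued function. -/
def mult (a : Fin (E.r + 1) → K) : Place K F →₀ ℕ :=
  (hypDiv E.vinf E.m E.x a).mapRange Int.toNat (by simp)

theorem mult_apply (a : Fin (E.r + 1) → K) (P : Place K F) :
    E.mult a P = (hypDiv E.vinf E.m E.x a P).toNat := by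
  unfold mult
  rw [Finsupp.mapRange_apply]

theorem coe_mult_apply (a : Fin (E.r + 1) → K) (P : Place K F) :
    ((E.mult a P : ℕ) : ℤ) = hypDiv E.vinf E.m E.x a P := by
  rw [E.mult_apply]
  exact Int.toNat_of_nonneg (Finsupp.le_def.mp (E.hypDiv_nonneg a) P)

theorem mult_zero : E.mult (0 : Fin (E.r + 1) → K) = 0 := by
  ext P
  rw [E.mult_apply, E.hypDiv_zero]
  simp

theorem mult_ne_zero_iff {a : Fin (E.r + 1) → K} (ha : a ≠ 0) (P : Place K F) :
    E.mult a P ≠ 0 ↔ dot a (E.coord P) = 0 := by
  rw [← E.hyp_pos_iff ha P, ← E.coe_mult_apply a P]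
  constructor
  · intro h
    have : 0 < E.mult a P := Nat.pos_of_ne_zero h
    exact_mod_cast this
  · intro h h0
    rw [h0] at h
    simp at h

theorem mult_sum {a : Fin (E.r + 1) → K} (ha : a ≠ 0) :
    ((E.mult a).sum fun _ n => n) = E.m := by
  have h1 := E.degree_hypDiv ha
  rw [degree_eq_sum] at h1
  have hsupp : (E.mult a).support = (hypDiv E.vinf E.m E.x a).support := by
    ext P
    rw [Finsupp.mem_support_iff, Finsupp.mem_support_iff, ← E.coe_mult_apply a P]
    simp
  have h2 : (((E.mult a).sum fun _ n => n : ℕ) : ℤ) = E.m := by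
    rw [← h1, Finsupp.sum, Nat.cast_sum, hsupp]
    refine Finset.sum_congr rfl fun P _ => ?_
    rw [E.coe_mult_apply a P, deg_eq_one P]
    simp
  exact_mod_cast h2

end PtData

end Fermat.Agent.S17.H77
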