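import Fermat.Agent.S17.H680.DescentRR
import Fermat.Agent.S17.H77.PtCoord

/-!
# S17 / tower H / leaf G-PT (helper77): an adapted basis of Galois-fixed functions

`F = ℚ̄ · F₀ ⊆ ℚ̄((q))`, `∞` a Galois-fixed place, `2g ≤ m`, `1 ≤ m`.  Then `L(m∞)` has a basis
`x₀ = 1, x₁, …, x_r` of Galois-fixed functions adapted to the pole order filtration at `∞`:
`exists_ptData` produces a `PtData` with these properties.
-/

set_option autoImplicit false

noncomputable section

open AlgebraicCurve ModularCurve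

namespace Fermat.Agent.S17.H77

open Fermat.Agent.Lib.RR Fermat.Agent.S17.H680

/-- A finite-dimensional vector space has a basis starting with a given nonzero vector. -/
theorem exists_basis_cons {k W : Type*} [Field k] [AddCommGroup W] [Module k W]
    [Module.Finite k W] (y : W) (hy : y ≠ 0) :
    ∃ (n : ℕ) (b : Module.Basis (Fin (n + 1)) k W), b 0 = y := by
  obtain ⟨C, hC⟩ := Submodule.exists_isCompl (Submodule.span k {y})
  let c := Module.finBasis k C
  have hli : ∀ (a : k), ∀ x ∈ C, a • y + x = 0 → a = 0 := by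
    intro a x hx h
    have h1 : a • y ∈ C := by
      have : a • y = -x := eq_neg_of_add_eq_zero_left h
      rw [this]
      exact C.neg_mem hx
    have h2 : a • y ∈ Submodule.span k {y} :=
      Submodule.smul_mem _ _ (Submodule.mem_span_singleton_self y)
    have h3 : a • y ∈ Submodule.span k {y} ⊓ C := ⟨h2, h1⟩
    rw [hC.inf_eq_bot, Submodule.mem_bot] at h3
    rcases smul_eq_zero.mp h3 with h4 | h4
    · exact h4
    · exact absurd h4 hy
  have hsp : ∀ z : W, ∃ a : k, z + a • y ∈ C := by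
    intro z
    have hz : z ∈ Submodule.span k {y} ⊔ C := by
      rw [hC.sup_eq_top]
      exact Submodule.mem_top
    obtain ⟨u, hu, w, hw, rfl⟩ := Submodule.mem_sup.mp hz
    obtain ⟨a, rfl⟩ := Submodule.mem_span_singleton.mp hu
    refine ⟨-a, ?_⟩
    rw [neg_smul, add_comm (a • y) w, add_neg_cancel_right]
    exact hw
  refine ⟨_, Module.Basis.mkFinCons y c hli hsp, ?_⟩
  rw [Module.Basis.coe_mkFinCons, Fin.cons_zero]

variable (F₀ : IntermediateField ℚ (LaurentSeries ℚ)) [FF1 Qb (laurentBaseChange Qb F₀)]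

omit [FF1 Qb (laurentBaseChange Qb F₀)] in
theorem isInvariant_nsmul_prim {vinf : Place Qb (laurentBaseChange Qb F₀)}
    (hinv : ∀ σ : GQ, arithmeticGalois F₀ σ • vinf = vinf) (k : ℕ) :
    IsInvariant F₀ (k • prim vinf) := by
  intro σ
  rw [smul_comm, smul_prim, hinv]

omit [FF1 Qb (laurentBaseChange Qb F₀)] in
theorem prim_nonneg' (vinf v : Place Qb (laurentBaseChange Qb F₀)) :
    (0 : ℤ) ≤ prim vinf v := by
  by_cases hv : v = vinf
  · subst hv
    unfold prim
    rw [Finsupp.single_eq_same]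
    exact zero_le_one
  · rw [prim_apply_of_ne hv]

omit [FF1 Qb (laurentBaseChange Qb F₀)] in
theorem one_mem_L_nsmul_prim (vinf : Place Qb (laurentBaseChange Qb F₀)) (k : ℕ) :
    (1 : laurentBaseChange Qb F₀) ∈ riemannRochSpace (k • prim vinf) := by
  rw [mem_L_iff]
  intro v
  right
  rw [Place.ord_one, Finsupp.smul_apply]
  have := prim_nonneg' F₀ vinf v
  have h2 : (0 : ℤ) ≤ k • prim vinf v := by
    rw [nsmul_eq_mul]
    positivity
  omega

omit [FF1 Qb (laurentBaseChange Qb F₀)] in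
theorem isFixed_one : IsFixed F₀ (1 : laurentBaseChange Qb F₀) := fun _ => smul_one _

/-- For an invariant divisor `D` with `1 ∈ L(D)`, the space `L(D)` has a `ℚ̄`-basis of
Galois-fixed functions starting with `1`. -/
theorem exists_fixed_basis_one {D : Divisor Qb (laurentBaseChange Qb F₀)}
    (hI : IsInvariant F₀ D) (h1 : (1 : laurentBaseChange Qb F₀) ∈ riemannRochSpace D) :
    ∃ (n : ℕ) (x : Fin (n + 1) → laurentBaseChange Qb F₀), x 0 = 1 ∧
      (∀ i, IsFixed F₀ (x i)) ∧ (∀ i, x i ∈ riemannRochSpace D) ∧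
      LinearIndependent Qb x ∧ Submodule.span Qb (Set.range x) = riemannRochSpace D := by
  classical
  have hfinW : Module.Finite ℚ (fixedPart F₀ (riemannRochSpace D)) := by
    obtain ⟨b, -, -, -, -, hspanQ⟩ := exists_fixed_basis_L F₀ hI
    rw [← hspanQ]
    exact FiniteDimensional.span_of_finite ℚ (Set.finite_range b)
  have hy : (⟨1, h1, isFixed_one F₀⟩ : fixedPart F₀ (riemannRochSpace D)) ≠ 0 := by
    intro h
    have := congrArg Subtype.val h
    exact one_ne_zero this
  obtain ⟨n, b, hb0⟩ := exists_basis_cons (k := ℚ) _ hy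
  have hx'fix : ∀ i, IsFixed F₀ ((b i : fixedPart F₀ (riemannRochSpace D)) :
      laurentBaseChange Qb F₀) := fun i => (b i).2.2
  have hx'L : ∀ i, ((b i : fixedPart F₀ (riemannRochSpace D)) :
      laurentBaseChange Qb F₀) ∈ riemannRochSpace D := fun i => (b i).2.1
  have hliQ : LinearIndependent ℚ (fun i => ((b i : fixedPart F₀ (riemannRochSpace D)) :
      laurentBaseChange Qb F₀)) :=
    b.linearIndependent.map' (Submodule.subtype _) (Submodule.ker_subtype _)
  have hli' := linearIndependent_of_isFixed F₀ _ hx'fix hliQ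
  have hspanQ : Submodule.span ℚ (Set.range (fun i =>
      ((b i : fixedPart F₀ (riemannRochSpace D)) : laurentBaseChange Qb F₀))) =
      fixedPart F₀ (riemannRochSpace D) := by
    have h1 := b.span_eq
    have h2 := congrArg (Submodule.map (Submodule.subtype _)) h1
    rw [Submodule.map_span, Submodule.map_top, Submodule.range_subtype, ← Set.range_comp] at h2
    exact h2
  refine ⟨n, fun i => ((b i : fixedPart F₀ (riemannRochSpace D)) : laurentBaseChange Qb F₀),
    ?_, hx'fix, hx'L, hli', ?_⟩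
  · show ((b 0 : fixedPart F₀ (riemannRochSpace D)) : laurentBaseChange Qb F₀) = 1
    rw [hb0]
  · apply le_antisymm
    · rw [Submodule.span_le]
      rintro _ ⟨i, rfl⟩
      exact hx'L i
    · refine le_trans (le_of_eq (span_fixed_eq F₀ (riemannRochSpace D)
        (fun σ _ hf => smul_mem_L_of_isInvariant F₀ hI σ hf)).symm) ?_
      rw [Submodule.span_le]
      intro f hf
      have hfW : f ∈ fixedPart F₀ (riemannRochSpace D) := hf
      rw [← hspanQ] at hfW
      exact Submodule.span_le_restrictScalars ℚ Qb _ hfW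

/-- If `ℓ(D₁) < ℓ(D₂)` with `D₂` invariant, some Galois-fixed function of `L(D₂)` is not in
`L(D₁)`. -/
theorem exists_fixed_not_mem {D₁ D₂ : Divisor Qb (laurentBaseChange Qb F₀)}
    (hI₂ : IsInvariant F₀ D₂) (hlt : ell D₁ < ell D₂) :
    ∃ t : laurentBaseChange Qb F₀, t ∈ riemannRochSpace D₂ ∧ IsFixed F₀ t ∧
      t ∉ riemannRochSpace D₁ := by
  by_contra hcon
  have hsub : riemannRochSpace D₂ ≤ riemannRochSpace D₁ := by
    rw [← span_fixed_eq F₀ (riemannRochSpace D₂)
      (fun σ _ hf => smul_mem_L_of_isInvariant F₀ hI₂ σ hf), Submodule.span_le]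
    intro f hf
    by_contra hf1
    exact hcon ⟨f, hf.1, hf.2, hf1⟩
  have h1 : ell D₂ ≤ ell D₁ := Submodule.finrank_mono hsub
  omega

omit [FF1 Qb (laurentBaseChange Qb F₀)] in
theorem nsmul_prim_le {vinf : Place Qb (laurentBaseChange Qb F₀)} {a b : ℕ} (h : a ≤ b) :
    a • prim vinf ≤ b • prim vinf := by
  rw [Finsupp.le_def]
  intro v
  rw [Finsupp.smul_apply, Finsupp.smul_apply, nsmul_eq_mul, nsmul_eq_mul]
  have h1 : (a : ℤ) ≤ (b : ℤ) := by exact_mod_cast h
  exact mul_le_mul_of_nonneg_right h1 (prim_nonneg' F₀ vinf v)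

theorem ell_nsmul_prim (vinf : Place Qb (laurentBaseChange Qb F₀)) (k : ℕ)
    (hk : 2 * (genusFF Qb (laurentBaseChange Qb F₀) : ℤ) - 2 < k) :
    (ell (k • prim vinf) : ℤ) = (k : ℤ) + 1 - genusFF Qb (laurentBaseChange Qb F₀) := by
  have hdeg : Divisor.degree (k • prim vinf) = (k : ℤ) := by
    rw [map_nsmul, degree_prim _ (deg_eq_one _)]
    simp
  have := ell_eq_of_degree_gt (D := k • prim vinf) (by rw [hdeg]; exact hk)
  rw [this, hdeg]

/-- **Adapted basis.**  For a Galois-fixed place `∞` and `m ≥ max (2g) 1`, the space `L(m∞)` has a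
basis of Galois-fixed functions `x₀ = 1, …, x_r` with `x_i ∈ L((m-1)∞)` for `i < r` and
`x_r ∉ L((m-1)∞)`. -/
theorem exists_ptData (vinf : Place Qb (laurentBaseChange Qb F₀))
    (hinv : ∀ σ : GQ, arithmeticGalois F₀ σ • vinf = vinf) (m : ℕ) (hm1 : 1 ≤ m)
    (hm : 2 * genusFF Qb (laurentBaseChange Qb F₀) ≤ m) :
    ∃ E : PtData Qb (laurentBaseChange Qb F₀), E.vinf = vinf ∧ E.m = m ∧
      ∀ i, IsFixed F₀ (E.x i) := by
  classical
  have hI₁ : IsInvariant F₀ ((m - 1) • prim vinf) := isInvariant_nsmul_prim F₀ hinv _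
  have hI₂ : IsInvariant F₀ (m • prim vinf) := isInvariant_nsmul_prim F₀ hinv _
  have hcast : ((m - 1 : ℕ) : ℤ) = (m : ℤ) - 1 := by
    push_cast [Nat.cast_sub hm1]
    rfl
  have hell₁ := ell_nsmul_prim F₀ vinf (m - 1) (by rw [hcast]; omega)
  have hell₂ := ell_nsmul_prim F₀ vinf m (by omega)
  rw [hcast] at hell₁
  have hle : (m - 1) • prim vinf ≤ m • prim vinf := nsmul_prim_le F₀ (Nat.sub_le m 1)
  obtain ⟨n, x', hx'0, hx'fix, hx'L, hli', hspan'⟩ :=
    exists_fixed_basis_one F₀ hI₁ (one_mem_L_nsmul_prim F₀ vinf _)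
  have hn : ell ((m - 1) • prim vinf) = n + 1 := by
    unfold ell
    rw [← hspan', finrank_span_eq_card hli', Fintype.card_fin]
  obtain ⟨t, htL, htfix, htn⟩ :=
    exists_fixed_not_mem F₀ (D₁ := (m - 1) • prim vinf) hI₂ (by omega)
  have hxli : LinearIndependent Qb (Fin.snoc x' t : Fin (n + 1 + 1) → laurentBaseChange Qb F₀) := by
    refine linearIndependent_finSnoc.mpr ⟨hli', ?_⟩
    rw [hspan']
    exact htn
  have hxL : ∀ i, (Fin.snoc x' t : Fin (n + 1 + 1) → laurentBaseChange Qb F₀) i ∈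
      riemannRochSpace (m • prim vinf) := by
    intro i
    rcases Fin.eq_castSucc_or_eq_last i with ⟨j, rfl⟩ | rfl
    · rw [Fin.snoc_castSucc]
      exact L_mono hle (hx'L j)
    · rw [Fin.snoc_last]
      exact htL
  have hxspan : Submodule.span Qb
      (Set.range (Fin.snoc x' t : Fin (n + 1 + 1) → laurentBaseChange Qb F₀)) =
      riemannRochSpace (m • prim vinf) := by
    have hle' : Submodule.span Qb
        (Set.range (Fin.snoc x' t : Fin (n + 1 + 1) → laurentBaseChange Qb F₀)) ≤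
        riemannRochSpace (m • prim vinf) := by
      rw [Submodule.span_le]
      rintro _ ⟨i, rfl⟩
      exact hxL i
    refine Submodule.eq_of_le_of_finrank_eq hle' ?_
    rw [finrank_span_eq_card hxli, Fintype.card_fin]
    have h3 : ell (m • prim vinf) = n + 1 + 1 := by omega
    exact h3.symm
  have hx0 : (Fin.snoc x' t : Fin (n + 1 + 1) → laurentBaseChange Qb F₀) 0 = 1 := by
    have h0 : (0 : Fin (n + 1 + 1)) = Fin.castSucc (0 : Fin (n + 1)) := rfl
    rw [h0, Fin.snoc_castSucc]
    exact hx'0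
  have hxlow : ∀ i : Fin (n + 1 + 1), i ≠ Fin.last (n + 1) →
      (Fin.snoc x' t : Fin (n + 1 + 1) → laurentBaseChange Qb F₀) i ∈
        riemannRochSpace ((m - 1) • prim vinf) := by
    intro i hi
    rcases Fin.eq_castSucc_or_eq_last i with ⟨j, rfl⟩ | rfl
    · rw [Fin.snoc_castSucc]
      exact hx'L j
    · exact absurd rfl hi
  have hxtop : (Fin.snoc x' t : Fin (n + 1 + 1) → laurentBaseChange Qb F₀) (Fin.last (n + 1)) ∉
      riemannRochSpace ((m - 1) • prim vinf) := by
    rw [Fin.snoc_last]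
    exact htn
  have hxfix : ∀ i, IsFixed F₀
      ((Fin.snoc x' t : Fin (n + 1 + 1) → laurentBaseChange Qb F₀) i) := by
    intro i
    rcases Fin.eq_castSucc_or_eq_last i with ⟨j, rfl⟩ | rfl
    · rw [Fin.snoc_castSucc]
      exact hx'fix j
    · rw [Fin.snoc_last]
      exact htfix
  exact ⟨PtData.mk vinf m (n + 1) (Fin.snoc x' t) (Nat.succ_pos n) hm1 hx0 hxli hxspan hxlow
    hxtop, rfl, rfl, hxfix⟩

end Fermat.Agent.S17.H77
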