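import Fermat.Agent.S17.H980.Mov2
import Fermat.Agent.S17.H440.PtCone
import Fermat.Agent.S17.H230.EmbCons
import Fermat.Agent.S17.H380.AbsBasic
import Fermat.Agent.S17.H77.PtBasis
import Fermat.Agent.S17.H680.Cusp

/-!
# S17 / tower H (helper77): Galois-fixed embedding data and Galois equivariance of the points

`F = ℚ̄ · F₀`, `g_σ = arithmeticGalois F₀ σ`.

* `exists_embData_fixed` : for a Galois-fixed place `∞` and `m ≥ 2g + 1` there is an
  `E : EmbData ℚ̄ F` with `E.vinf = ∞`, `E.m = m`, all `E.x i` Galois-fixed, `E.x 0 = 1`,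
  adapted to the pole filtration at `∞` (`E.x i ∈ L((m-1)∞)` for `i < r`, `E.x r ∉ L((m-1)∞)`),
  `E.pt = ptD`, `E.tn = tnD` (helper230's constructor);

for ANY `E : EmbData ℚ̄ F` with Galois-fixed basis and invariant `∞`:

* `smul_lin`, `smul_Z` : `g_σ • Z_a = Z_{σ a}`;  `Z_galVec_smul_apply`;
* `exists_pt_smul` : `E.pt (g_σ • P) = c • σ(E.pt P)` with `c ≠ 0` (projective equivariance);
* `ht_pt_smul` : `ht (E.pt (g_σ • P)) = ht (E.pt P)`;
* `Z_single_zero` : if `E.x 0 = 1` then `Z_{e₀} = m • ∞`.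
-/

set_option autoImplicit false

noncomputable section

open AlgebraicCurve ModularCurve

namespace Fermat.Agent.S17.H77

open Fermat.Agent.Lib.RR Fermat.Agent.S17.H680 Fermat.Agent.S17.HWall

/-- the conjugate `σ ∘ a` of a coordinate vector -/
def galVec {n : ℕ} (σ : GQ) (a : Fin n → Qb) : Fin n → Qb := fun i => σ (a i)

theorem galVec_apply {n : ℕ} (σ : GQ) (a : Fin n → Qb) (i : Fin n) :
    galVec σ a i = σ (a i) := rfl

theorem galVec_zero {n : ℕ} (σ : GQ) : galVec σ (0 : Fin n → Qb) = 0 := by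
  funext i
  simp [galVec]

theorem galVec_eq_zero_iff {n : ℕ} (σ : GQ) (a : Fin n → Qb) : galVec σ a = 0 ↔ a = 0 := by
  constructor
  · intro h
    funext i
    have := congrFun h i
    simpa [galVec] using this
  · rintro rfl
    exact galVec_zero σ

theorem galVec_inv_galVec {n : ℕ} (σ : GQ) (a : Fin n → Qb) :
    galVec σ (galVec σ⁻¹ a) = a := by
  funext i
  show σ (σ⁻¹ (a i)) = a i
  rw [← AlgEquiv.mul_apply, mul_inv_cancel, AlgEquiv.one_apply]

theorem dot_galVec {n : ℕ} (σ : GQ) (a y : Fin n → Qb) :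
    dot (galVec σ a) (galVec σ y) = σ (dot a y) := by
  show ∑ i, σ (a i) * σ (y i) = σ (∑ i, a i * y i)
  rw [map_sum]
  exact Finset.sum_congr rfl fun i _ => (map_mul σ _ _).symm

theorem galVec_smul {n : ℕ} (σ : GQ) (c : Qb) (a : Fin n → Qb) :
    galVec σ (c • a) = σ c • galVec σ a := by
  funext i
  show σ (c * a i) = σ c * σ (a i)
  exact map_mul σ _ _

variable (F₀ : IntermediateField ℚ (LaurentSeries ℚ)) [FF1 Qb (laurentBaseChange Qb F₀)]

omit [FF1 Qb (laurentBaseChange Qb F₀)] in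
/-- `g_σ (Σ aᵢ xᵢ) = Σ σ(aᵢ) xᵢ` for Galois-fixed `xᵢ`. -/
theorem smul_lin {n : ℕ} (x : Fin n → laurentBaseChange Qb F₀) (hxfix : ∀ i, IsFixed F₀ (x i))
    (σ : GQ) (a : Fin n → Qb) :
    arithmeticGalois F₀ σ • lin x a = lin x (galVec σ a) := by
  unfold lin
  rw [Finset.smul_sum]
  refine Finset.sum_congr rfl fun j _ => ?_
  rw [arithmeticGalois_smul_smul, hxfix j σ]
  rfl

/-- `g_σ • Z_a = Z_{σ a}`. -/
theorem smul_Z (E : EmbData Qb (laurentBaseChange Qb F₀))
    (hxfix : ∀ i, IsFixed F₀ (E.x i)) (hinf : IsInvariant F₀ (prim E.vinf))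
    (σ : GQ) (a : Fin (E.r + 1) → Qb) :
    arithmeticGalois F₀ σ • E.Z a = E.Z (galVec σ a) := by
  by_cases ha : a = 0
  · subst ha
    have : E.Z (0 : Fin (E.r + 1) → Qb) = 0 := by
      unfold EmbData.Z hypDiv
      rw [dif_pos (by simp [lin])]
    rw [galVec_zero, this, smul_zero]
  · have ha' : galVec σ a ≠ 0 := fun h => ha ((galVec_eq_zero_iff σ a).mp h)
    rw [E.Z_eq ha, E.Z_eq ha', smul_add, smul_divOf, smul_comm, hinf σ]
    congr 1
    exact divOf_congr _ (smul_lin F₀ E.x hxfix σ a)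

theorem Z_galVec_smul_apply (E : EmbData Qb (laurentBaseChange Qb F₀))
    (hxfix : ∀ i, IsFixed F₀ (E.x i)) (hinf : IsInvariant F₀ (prim E.vinf))
    (σ : GQ) (a : Fin (E.r + 1) → Qb) (P : Place Qb (laurentBaseChange Qb F₀)) :
    E.Z (galVec σ a) (arithmeticGalois F₀ σ • P) = E.Z a P := by
  rw [← smul_Z F₀ E hxfix hinf σ a, SemilinearAut.divisor_smul_apply_smul]

/-- **Projective Galois equivariance of the points.** -/
theorem exists_pt_smul (E : EmbData Qb (laurentBaseChange Qb F₀))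
    (hxfix : ∀ i, IsFixed F₀ (E.x i)) (hinf : IsInvariant F₀ (prim E.vinf))
    (σ : GQ) (P : Place Qb (laurentBaseChange Qb F₀)) :
    ∃ c : Qb, c ≠ 0 ∧ E.pt (arithmeticGalois F₀ σ • P) = c • galVec σ (E.pt P) := by
  refine H440.exists_smul_eq_of_dot_iff (H440.pt_ne_zero E _)
    (fun h => H440.pt_ne_zero E P ((galVec_eq_zero_iff σ _).mp h)) fun a ha => ?_
  have ha' : galVec σ⁻¹ a ≠ 0 := fun h => ha ((galVec_eq_zero_iff σ⁻¹ a).mp h)
  rw [E.pt_spec _ a ha]
  have h1 : hypDiv E.vinf E.m E.x a (arithmeticGalois F₀ σ • P) = E.Z (galVec σ⁻¹ a) P := by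
    have := Z_galVec_smul_apply F₀ E hxfix hinf σ (galVec σ⁻¹ a) P
    rw [galVec_inv_galVec] at this
    exact this
  rw [h1]
  have h2 := E.pt_spec P (galVec σ⁻¹ a) ha'
  rw [show hypDiv E.vinf E.m E.x (galVec σ⁻¹ a) P = E.Z (galVec σ⁻¹ a) P from rfl] at h2
  rw [← h2]
  have h3 := dot_galVec σ (galVec σ⁻¹ a) (E.pt P)
  rw [galVec_inv_galVec] at h3
  rw [h3]
  exact (map_eq_zero_iff σ σ.injective).symm

/-- **Galois invariance of the height of a point.** -/
theorem ht_pt_smul (E : EmbData Qb (laurentBaseChange Qb F₀))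
    (hxfix : ∀ i, IsFixed F₀ (E.x i)) (hinf : IsInvariant F₀ (prim E.vinf))
    (σ : GQ) (P : Place Qb (laurentBaseChange Qb F₀)) :
    HContract.ht (E.pt (arithmeticGalois F₀ σ • P)) = HContract.ht (E.pt P) := by
  obtain ⟨c, hc, h⟩ := exists_pt_smul F₀ E hxfix hinf σ P
  unfold HContract.ht
  rw [h, H380.absLogHeight_smul _ (fun i => isIntegral_Qb _) hc (isIntegral_Qb c)]
  exact H380.absLogHeight_ringHom (σ : Qb →+* Qb) (E.pt P)

/-- `Z_{e₀} = m • ∞` when `x₀ = 1`. -/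
theorem Z_single_zero (E : EmbData Qb (laurentBaseChange Qb F₀)) (hx0 : E.x 0 = 1) :
    E.Z (Pi.single 0 (1 : Qb)) = E.m • prim E.vinf := by
  classical
  have hne : (Pi.single 0 (1 : Qb) : Fin (E.r + 1) → Qb) ≠ 0 := by
    intro h
    have := congrFun h 0
    simp at this
  have hlin : lin E.x (Pi.single 0 (1 : Qb)) = 1 := by
    unfold lin
    rw [Finset.sum_eq_single 0]
    · rw [Pi.single_eq_same, one_smul, hx0]
    · intro j _ hj
      rw [Pi.single_eq_of_ne hj, zero_smul]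
    · intro h
      exact absurd (Finset.mem_univ _) h
  rw [E.Z_eq hne]
  have : divOf (K := Qb) (lin E.x (Pi.single 0 (1 : Qb))) (E.lin_ne_zero hne) = 0 := by
    ext v
    rw [divOf_apply (K := Qb), hlin, Place.ord_one]
    rfl
  rw [this, zero_add]

/-- **Existence of a Galois-fixed adapted embedding datum.** -/
theorem exists_embData_fixed (vinf : Place Qb (laurentBaseChange Qb F₀))
    (hinv : ∀ σ : GQ, arithmeticGalois F₀ σ • vinf = vinf) (m : ℕ)
    (hm : 2 * genusR Qb (laurentBaseChange Qb F₀) + 1 ≤ m) :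
    ∃ E : EmbData Qb (laurentBaseChange Qb F₀), E.vinf = vinf ∧ E.m = m ∧
      (∀ i, IsFixed F₀ (E.x i)) ∧ E.x 0 = 1 ∧
      (∀ i, i ≠ Fin.last E.r → E.x i ∈ riemannRochSpace ((m - 1) • prim vinf)) ∧
      E.x (Fin.last E.r) ∉ riemannRochSpace ((m - 1) • prim vinf) ∧
      E.pt = H230.ptD (m • prim vinf) E.x ∧ E.tn = H230.tnD (m • prim vinf) E.x := by
  have hg : genusFF Qb (laurentBaseChange Qb F₀) = genusR Qb (laurentBaseChange Qb F₀) :=
    genusFF_eq_genusR
  obtain ⟨D, hv, hmm, hfix⟩ := exists_ptData F₀ vinf hinv m (by omega) (by rw [hg]; omega)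
  subst hv hmm
  exact ⟨H230.embOfBasis D.vinf D.m hm D.x D.x_li D.x_span, rfl, rfl, hfix, D.x_zero,
    D.x_low, D.x_top, rfl, rfl⟩

/-- **The modular curve**: a Galois-fixed adapted embedding datum of `X₀(N)` at the cusp `∞`,
for every degree `m ≥ 2g + 1`. -/
theorem exists_embData_cusp (N : ℕ) [NeZero N] [FF1 Qb (modularFunctionFieldBar N)] (m : ℕ)
    (hm : 2 * genusR Qb (modularFunctionFieldBar N) + 1 ≤ m) :
    ∃ E : EmbData Qb (modularFunctionFieldBar N), E.vinf = JZero.cusp N ∧ E.m = m ∧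
      (∀ i, IsFixed (modularFunctionFieldFull N) (E.x i)) ∧
      IsInvariant (modularFunctionFieldFull N) (prim E.vinf) ∧ E.x 0 = 1 ∧
      (∀ i, i ≠ Fin.last E.r → E.x i ∈ riemannRochSpace ((m - 1) • prim (JZero.cusp N))) ∧
      E.x (Fin.last E.r) ∉ riemannRochSpace ((m - 1) • prim (JZero.cusp N)) ∧
      E.pt = H230.ptD (m • prim (JZero.cusp N)) E.x ∧
      E.tn = H230.tnD (m • prim (JZero.cusp N)) E.x := by
  obtain ⟨E, h1, h2, h3, h4, h5, h6, h7, h8⟩ :=
    exists_embData_fixed (modularFunctionFieldFull N) (JZero.cusp N)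
      (JZero.galois_smul_cusp N) m hm
  refine ⟨E, h1, h2, h3, ?_, h4, h5, h6, h7, h8⟩
  intro σ
  rw [h1, smul_prim, JZero.galois_smul_cusp]

end Fermat.Agent.S17.H77
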