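import Fermat.Agent.S17.H500.TopData
import Fermat.Agent.S17.H77.EmbGal
import Fermat.Agent.S17.H50.AbsNorthcott

/-!
# S17 / tower H, TOP-GLUE leaf T-NC (helper77): Northcott for effective invariant divisors

`theorem northcott (I : Top.TopInput F₀) : Top.NorthcottStatement I`.

Route: an effective divisor `D` gives the cycle `cyc E D = Σ_P D(P) • {npt P}` of NORMALISED
points (`npt P = E.pt P` divided by a coordinate chosen in terms of the support of the vector
only).  `npt` is injective (`H440.pt_injective`) and Galois equivariant (`exists_pt_smul`), so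
`D ↦ cyc E D` is injective, `cyc E D` is Galois stable for invariant `D`, has `deg D` elements
and height `N(D)`; conclude by `H50.northcott_cycle_abs`.
-/

set_option autoImplicit false
set_option linter.unusedSectionVars false

noncomputable section

open AlgebraicCurve ModularCurve

namespace Fermat.Agent.S17.H77

open Fermat.Agent.Lib.RR Fermat.Agent.S17.H680 Fermat.Agent.S17.HWall
open Fermat.Agent.S17.HContract Fermat.Agent.S17.H500.Top

/-! ### Normalisation of a non-zero vector -/

section Norm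

variable {n : ℕ}

/-- the support of a vector -/
def vsupp (v : Fin (n + 1) → Qb) : Finset (Fin (n + 1)) :=
  haveI : DecidablePred fun i => v i ≠ 0 := Classical.decPred _
  Finset.univ.filter fun i => v i ≠ 0

/-- a chosen element of a nonempty set of indices -/
def pickIdx (s : Finset (Fin (n + 1))) : Fin (n + 1) :=
  haveI : Decidable s.Nonempty := Classical.dec _
  if h : s.Nonempty then h.choose else 0

theorem pickIdx_mem {s : Finset (Fin (n + 1))} (h : s.Nonempty) : pickIdx s ∈ s := by
  unfold pickIdx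
  rw [dif_pos h]
  exact h.choose_spec

theorem mem_vsupp (v : Fin (n + 1) → Qb) (i : Fin (n + 1)) : i ∈ vsupp v ↔ v i ≠ 0 := by
  unfold vsupp
  simp only [Finset.mem_filter, Finset.mem_univ, true_and]

theorem vsupp_nonempty {v : Fin (n + 1) → Qb} (hv : v ≠ 0) : (vsupp v).Nonempty := by
  by_contra h
  apply hv
  funext i
  by_contra hi
  exact h ⟨i, (mem_vsupp v i).mpr hi⟩

theorem pick_ne_zero {v : Fin (n + 1) → Qb} (hv : v ≠ 0) : v (pickIdx (vsupp v)) ≠ 0 :=
  (mem_vsupp v _).mp (pickIdx_mem (vsupp_nonempty hv))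

/-- the normalised vector: the chosen coordinate becomes `1` -/
def nvec (v : Fin (n + 1) → Qb) : Fin (n + 1) → Qb := (v (pickIdx (vsupp v)))⁻¹ • v

theorem nvec_pick {v : Fin (n + 1) → Qb} (hv : v ≠ 0) : nvec v (pickIdx (vsupp v)) = 1 := by
  unfold nvec
  rw [Pi.smul_apply, smul_eq_mul, inv_mul_cancel₀ (pick_ne_zero hv)]

theorem vsupp_smul {c : Qb} (hc : c ≠ 0) (v : Fin (n + 1) → Qb) : vsupp (c • v) = vsupp v := by
  ext i
  rw [mem_vsupp, mem_vsupp, Pi.smul_apply, smul_eq_mul]
  exact ⟨fun h h0 => h (by rw [h0, mul_zero]), fun h => mul_ne_zero hc h⟩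

theorem vsupp_galVec (σ : GQ) (v : Fin (n + 1) → Qb) : vsupp (galVec σ v) = vsupp v := by
  ext i
  rw [mem_vsupp, mem_vsupp, galVec_apply]
  exact not_congr (map_eq_zero_iff σ σ.injective)

theorem nvec_smul {c : Qb} (hc : c ≠ 0) (v : Fin (n + 1) → Qb) : nvec (c • v) = nvec v := by
  unfold nvec
  rw [vsupp_smul hc, Pi.smul_apply, smul_eq_mul, smul_smul, mul_inv, mul_assoc,
    mul_comm _ c, ← mul_assoc, inv_mul_cancel₀ hc, one_mul]

theorem nvec_galVec (σ : GQ) (v : Fin (n + 1) → Qb) : nvec (galVec σ v) = galVec σ (nvec v) := by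
  unfold nvec
  rw [vsupp_galVec, galVec_smul, galVec_apply, map_inv₀]

theorem absLogHeight_nvec {v : Fin (n + 1) → Qb} (hv : v ≠ 0) :
    H380.absLogHeight (nvec v) = H380.absLogHeight v :=
  H380.absLogHeight_smul v (fun _ => isIntegral_Qb _) (inv_ne_zero (pick_ne_zero hv))
    (isIntegral_Qb _)

theorem eq_smul_of_nvec_eq {v w : Fin (n + 1) → Qb} (hv : v ≠ 0) (h : nvec v = nvec w) :
    ∃ c : Qb, v = c • w := by
  refine ⟨v (pickIdx (vsupp v)) * (w (pickIdx (vsupp w)))⁻¹, ?_⟩
  have h1 : v = v (pickIdx (vsupp v)) • nvec v := by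
    unfold nvec
    rw [smul_smul, mul_inv_cancel₀ (pick_ne_zero hv), one_smul]
  rw [mul_smul]
  conv_lhs => rw [h1, h]
  rfl

end Norm

/-! ### Normalised points -/

variable {F₀ : IntermediateField ℚ (LaurentSeries ℚ)} [FF1 Qb (laurentBaseChange Qb F₀)]

/-- the normalised point of a place -/
def npt (E : EmbData Qb (laurentBaseChange Qb F₀)) (P : Place Qb (laurentBaseChange Qb F₀)) :
    Fin (E.r + 1) → Qb :=
  nvec (E.pt P)

theorem npt_smul (E : EmbData Qb (laurentBaseChange Qb F₀))
    (hxfix : ∀ i, IsFixed F₀ (E.x i)) (hinf : IsInvariant F₀ (prim E.vinf))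
    (σ : GQ) (P : Place Qb (laurentBaseChange Qb F₀)) :
    npt E (arithmeticGalois F₀ σ • P) = galVec σ (npt E P) := by
  obtain ⟨c, hc, h⟩ := exists_pt_smul F₀ E hxfix hinf σ P
  unfold npt
  rw [h, nvec_smul hc, nvec_galVec]

theorem npt_injective (E : EmbData Qb (laurentBaseChange Qb F₀)) :
    Function.Injective (npt E) := by
  intro P Q h
  obtain ⟨c, hc⟩ := eq_smul_of_nvec_eq (H440.pt_ne_zero E P) h
  exact H440.pt_injective E hc

theorem exists_npt_eq_one (E : EmbData Qb (laurentBaseChange Qb F₀))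
    (P : Place Qb (laurentBaseChange Qb F₀)) : ∃ i, npt E P i = 1 :=
  ⟨_, nvec_pick (H440.pt_ne_zero E P)⟩

theorem ht_npt (E : EmbData Qb (laurentBaseChange Qb F₀))
    (P : Place Qb (laurentBaseChange Qb F₀)) :
    H380.absLogHeight (npt E P) = ht (E.pt P) :=
  absLogHeight_nvec (H440.pt_ne_zero E P)

/-! ### The cycle of an effective divisor -/

/-- the multiplicities of an effective divisor, as natural numbers -/
def natPart (D : Divisor Qb (laurentBaseChange Qb F₀)) :
    Place Qb (laurentBaseChange Qb F₀) →₀ ℕ :=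
  D.mapRange Int.toNat rfl

theorem natPart_apply (D : Divisor Qb (laurentBaseChange Qb F₀))
    (P : Place Qb (laurentBaseChange Qb F₀)) : natPart D P = (D P).toNat := rfl

theorem coe_natPart_apply {D : Divisor Qb (laurentBaseChange Qb F₀)} (hD : 0 ≤ D)
    (P : Place Qb (laurentBaseChange Qb F₀)) : ((natPart D P : ℕ) : ℤ) = D P := by
  rw [natPart_apply]
  have := Finsupp.le_def.mp hD P
  simp only [Finsupp.coe_zero, Pi.zero_apply] at this
  omega

theorem natPart_injOn {D D' : Divisor Qb (laurentBaseChange Qb F₀)} (hD : 0 ≤ D) (hD' : 0 ≤ D')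
    (h : natPart D = natPart D') : D = D' := by
  ext P
  rw [← coe_natPart_apply hD P, ← coe_natPart_apply hD' P, h]

theorem natPart_smul (g : SemilinearAut Qb (laurentBaseChange Qb F₀))
    (D : Divisor Qb (laurentBaseChange Qb F₀)) :
    natPart (g • D) = (natPart D).mapDomain (g • ·) := by
  ext P
  rw [natPart_apply, SemilinearAut.divisor_smul_apply]
  have h := Finsupp.mapDomain_apply (MulAction.injective g) (natPart D) (g⁻¹ • P)
  rw [smul_inv_smul] at h
  rw [h, natPart_apply]

theorem natPart_support {D : Divisor Qb (laurentBaseChange Qb F₀)} (hD : 0 ≤ D) :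
    (natPart D).support = D.support := by
  ext P
  rw [Finsupp.mem_support_iff, Finsupp.mem_support_iff, natPart_apply]
  have := Finsupp.le_def.mp hD P
  simp only [Finsupp.coe_zero, Pi.zero_apply] at this
  omega

/-- the cycle of normalised points of a divisor -/
def cyc (E : EmbData Qb (laurentBaseChange Qb F₀)) (D : Divisor Qb (laurentBaseChange Qb F₀)) :
    Multiset (Fin (E.r + 1) → Qb) :=
  Finsupp.toMultiset ((natPart D).mapDomain (npt E))

theorem cyc_injOn (E : EmbData Qb (laurentBaseChange Qb F₀))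
    {D D' : Divisor Qb (laurentBaseChange Qb F₀)} (hD : 0 ≤ D) (hD' : 0 ≤ D')
    (h : cyc E D = cyc E D') : D = D' := by
  classical
  unfold cyc at h
  have h1 := congrArg Multiset.toFinsupp h
  rw [Finsupp.toMultiset_toFinsupp, Finsupp.toMultiset_toFinsupp] at h1
  exact natPart_injOn hD hD' (Finsupp.mapDomain_injective (npt_injective E) h1)

theorem mem_cyc (E : EmbData Qb (laurentBaseChange Qb F₀))
    (D : Divisor Qb (laurentBaseChange Qb F₀)) {y : Fin (E.r + 1) → Qb} (hy : y ∈ cyc E D) :
    ∃ P, y = npt E P := by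
  classical
  unfold cyc at hy
  rw [Finsupp.mem_toMultiset] at hy
  have h2 := Finsupp.mapDomain_support hy
  obtain ⟨P, -, hP⟩ := Finset.mem_image.mp h2
  exact ⟨P, hP.symm⟩

theorem cyc_normalised (E : EmbData Qb (laurentBaseChange Qb F₀))
    (D : Divisor Qb (laurentBaseChange Qb F₀)) : ∀ y ∈ cyc E D, ∃ i, y i = 1 := by
  intro y hy
  obtain ⟨P, rfl⟩ := mem_cyc E D hy
  exact exists_npt_eq_one E P

theorem card_cyc (E : EmbData Qb (laurentBaseChange Qb F₀))
    {D : Divisor Qb (laurentBaseChange Qb F₀)} (hD : 0 ≤ D) :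
    ((cyc E D).card : ℤ) = Divisor.degree D := by
  classical
  unfold cyc
  rw [Finsupp.card_toMultiset, Finsupp.sum_mapDomain_index (fun _ => rfl) (fun _ _ _ => rfl),
    degree_eq_sum, Finsupp.sum, Nat.cast_sum, natPart_support hD]
  refine Finset.sum_congr rfl fun P _ => ?_
  rw [id, coe_natPart_apply hD, deg_eq_one, Nat.cast_one, mul_one]

theorem isGStable_cyc (E : EmbData Qb (laurentBaseChange Qb F₀))
    (hxfix : ∀ i, IsFixed F₀ (E.x i)) (hinf : IsInvariant F₀ (prim E.vinf))
    {D : Divisor Qb (laurentBaseChange Qb F₀)} (hD : IsInvariant F₀ D) :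
    H50.IsGStable (cyc E D) := by
  intro σ
  show (cyc E D).map (galVec σ) = cyc E D
  unfold cyc
  rw [Finsupp.toMultiset_map, ← Finsupp.mapDomain_comp]
  have hcomp : galVec σ ∘ npt E = npt E ∘ (arithmeticGalois F₀ σ • ·) := by
    funext P
    exact (npt_smul E hxfix hinf σ P).symm
  rw [hcomp, Finsupp.mapDomain_comp, ← natPart_smul, hD σ]

theorem cycAbs_cyc (E : EmbData Qb (laurentBaseChange Qb F₀))
    {D : Divisor Qb (laurentBaseChange Qb F₀)} (hD : 0 ≤ D) :
    H50.cycAbs (cyc E D) = naive E D := by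
  classical
  unfold H50.cycAbs cyc naive
  rw [Finsupp.toMultiset_map, Finsupp.sum_toMultiset, ← Finsupp.mapDomain_comp,
    Finsupp.sum_mapDomain_index (h := fun (a : ℝ) (n : ℕ) => n • a) (fun b => zero_smul ℕ b)
      (fun b m₁ m₂ => add_smul m₁ m₂ b),
    Finsupp.sum, Finsupp.sum, natPart_support hD]
  refine Finset.sum_congr rfl fun P _ => ?_
  rw [Function.comp_apply, ht_npt, nsmul_eq_mul]
  congr 1
  have := coe_natPart_apply hD P
  exact_mod_cast congrArg (fun z : ℤ => (z : ℝ)) this

/-- **T-NC: Northcott for effective invariant divisors of bounded degree.** -/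
theorem northcott (I : TopInput F₀) : NorthcottStatement I := by
  intro e B
  have hfin := H50.northcott_cycle_abs (ι := Fin (I.E.r + 1)) e B
  refine Set.Finite.of_finite_image (f := fun D : Dv F₀ =>
    cyc I.E (D : Divisor Qb (laurentBaseChange Qb F₀))) (hfin.subset ?_) ?_
  · rintro _ ⟨D, ⟨hdeg, hN⟩, rfl⟩
    refine ⟨?_, isGStable_cyc I.E I.xfix I.inf_inv D.inv, cyc_normalised I.E _, ?_⟩
    · have h1 := card_cyc I.E D.nonneg
      have h2 := coe_degHom D
      have h3 : ((cyc I.E (D : Divisor Qb (laurentBaseChange Qb F₀))).card : ℤ) =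
          (degHom D : ℕ) := by rw [h1, h2]
      have h4 : (cyc I.E (D : Divisor Qb (laurentBaseChange Qb F₀))).card = degHom D := by
        exact_mod_cast h3
      rw [h4]
      exact hdeg
    · rw [cycAbs_cyc I.E D.nonneg]
      exact hN
  · intro D _ D' _ h
    exact Subtype.ext (cyc_injOn I.E D.nonneg D'.nonneg h)

/-- **G-EMB** (exact shape of `coord/S17-HSkel.md` sec. 5): an embedding datum of `X₀(N)` at the
cusp with Galois-fixed basis and `x₀ = 1`, for every degree `m ≥ 2g + 1`. -/
theorem gEmb (N : ℕ) [NeZero N] [FF1 Qb (modularFunctionFieldBar N)] (m : ℕ)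
    (hm : 2 * genusR Qb (modularFunctionFieldBar N) + 1 ≤ m) :
    ∃ E : EmbData Qb (modularFunctionFieldBar N), E.m = m ∧ E.vinf = JZero.cusp N ∧
      (∀ i, IsFixed (modularFunctionFieldFull N) (E.x i)) ∧ E.x 0 = 1 := by
  obtain ⟨E, h1, h2, h3, -, h4, -⟩ := exists_embData_cusp N m hm
  exact ⟨E, h2, h1, h3, h4⟩

end Fermat.Agent.S17.H77
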