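import Fermat.Agent.S17.H77.StabAbstract
import Fermat.Agent.Lib.RR.H864.FF1Modular

/-!
# S17 / BASE-1 (helper77): `stabilizer_open` in the exact skeleton shape

Every class of `JZero N = Pic⁰(ℚ̄(X₀(N)))` is fixed by `Gal(ℚ̄/K)` for some number field `K`.
Proof: `StabAbstract.lean` (Riemann's theorem: a place is the unique pole of a function; a function
has its coefficients in a number field) + `FF1` for the modular function field (Lib/RR, H864).
-/

set_option autoImplicit false

noncomputable section

namespace Fermat.Agent.S17.H77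

open ModularCurve AlgebraicCurve

/-- **BASE-1** (= `Skel.stabilizer_open`). -/
theorem stabilizer_open (N : ℕ) [NeZero N] (x : JZero N) :
    ∃ K : IntermediateField ℚ (AlgebraicClosure ℚ), FiniteDimensional ℚ K ∧
      ∀ σ : (AlgebraicClosure ℚ) ≃ₐ[ℚ] (AlgebraicClosure ℚ), (∀ a ∈ K, σ a = a) → σ • x = x := by
  have := Fermat.Agent.Lib.RR.H864.ff1_modularFunctionFieldBar N
  exact stabilizer_open_of_ff1 (modularFunctionFieldFull N) x

/-- Every place of `ℚ̄(X₀(N))` is fixed by `Gal(ℚ̄/K)` for some number field `K`. -/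
theorem exists_field_fixing_place_modular (N : ℕ) [NeZero N]
    (P : Place (AlgebraicClosure ℚ) (modularFunctionFieldBar N)) :
    ∃ K : IntermediateField ℚ (AlgebraicClosure ℚ), FiniteDimensional ℚ K ∧
      ∀ σ : (AlgebraicClosure ℚ) ≃ₐ[ℚ] (AlgebraicClosure ℚ), (∀ a ∈ K, σ a = a) →
        arithmeticGalois (modularFunctionFieldFull N) σ • P = P := by
  have := Fermat.Agent.Lib.RR.H864.ff1_modularFunctionFieldBar N
  exact exists_field_fixing_place (modularFunctionFieldFull N) P

end Fermat.Agent.S17.H77
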