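import Fermat.Agent.Lib.RR.Riemann
import Fermat.Prelude.Def_ModularCurve_ArithmeticGalois

/-!
# S17 / BASE-1 (helper77): every divisor class is defined over a number field — abstract form

Setting: `F₀ ⊆ ℚ((q))` an intermediate field, `F = ℚ̄ · F₀ ⊆ ℚ̄((q))` its base change
(`laurentBaseChange`), with the coefficientwise action of `G_ℚ = Gal(ℚ̄/ℚ)`
(`ModularCurve.arithmeticGalois`).  Assume `FF1 ℚ̄ F` (Riemann's theorem is available).

* `exists_fixing_field` : every `f ∈ F` has its coefficients in a number field `K`, i.e. is fixed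
  by every `σ` fixing `K` pointwise.
* `exists_pole_function` : every place `P` is the unique pole of some function (Riemann).
* `exists_field_fixing_place` : hence `P` is fixed by `Gal(ℚ̄/K)` for a number field `K`.
* `stabilizer_open_of_ff1` : every class of `Pic⁰(F)` is fixed by `Gal(ℚ̄/K)` for a number field `K`.
-/

set_option autoImplicit false

noncomputable section

namespace Fermat.Agent.S17.H77

open ModularCurve AlgebraicCurve IntermediateField
open Fermat.Agent.Lib.RR

/-- `ℚ̄` -/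
abbrev Qb : Type := AlgebraicClosure ℚ

/-- the absolute Galois group of `ℚ` -/
abbrev GQ : Type := Qb ≃ₐ[ℚ] Qb

/-- `ℚ̄` is algebraic over `ℚ` (for the ambient `Algebra ℚ ℚ̄` instance). -/
theorem isAlgebraic_Qb : @Algebra.IsAlgebraic ℚ Qb _ _ (inferInstance : Algebra ℚ Qb) := by
  have h : (inferInstance : Algebra ℚ Qb) =
      (AlgebraicClosure.instAlgebra ℚ : Algebra ℚ (AlgebraicClosure ℚ)) := Subsingleton.elim _ _
  rw [h]
  exact AlgebraicClosure.isAlgebraic ℚ

theorem isIntegral_Qb (a : Qb) : IsIntegral ℚ a := by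
  have := isAlgebraic_Qb
  exact (Algebra.IsAlgebraic.isAlgebraic a).isIntegral

variable (F₀ : IntermediateField ℚ (LaurentSeries ℚ))

/-! ### Step 1: the coefficient field of a function -/

/-- Every element of `ℚ̄ · F₀` is fixed by `Gal(ℚ̄/K)` for some number field `K`. -/
theorem exists_fixing_field {f : LaurentSeries Qb} (hf : f ∈ laurentBaseChange Qb F₀) :
    ∃ K : IntermediateField ℚ Qb, FiniteDimensional ℚ K ∧
      ∀ σ : GQ, (∀ a ∈ K, σ a = a) → coeffMap (σ : Qb →+* Qb) f = f := by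
  rw [mem_laurentBaseChange_iff] at hf
  induction hf using Subfield.closure_induction with
  | mem y hy =>
    rcases hy with ⟨a, rfl⟩ | ⟨z, hz, rfl⟩
    · have ha : IsIntegral ℚ a := isIntegral_Qb a
      refine ⟨ℚ⟮a⟯, IntermediateField.adjoin.finiteDimensional ha, fun σ hσ => ?_⟩
      rw [coeffMap_algebraMap]
      congr 1
      exact hσ a (IntermediateField.mem_adjoin_simple_self ℚ a)
    · exact ⟨⊥, inferInstance, fun σ _ => coeffMap_coeffEmb σ z⟩
  | one => exact ⟨⊥, inferInstance, fun σ _ => map_one _⟩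
  | add x y _ _ hx hy =>
    obtain ⟨K₁, hK₁, h₁⟩ := hx
    obtain ⟨K₂, hK₂, h₂⟩ := hy
    refine ⟨K₁ ⊔ K₂, IntermediateField.finiteDimensional_sup K₁ K₂, fun σ hσ => ?_⟩
    rw [map_add, h₁ σ fun a ha => hσ a ((le_sup_left : K₁ ≤ K₁ ⊔ K₂) ha),
      h₂ σ fun a ha => hσ a ((le_sup_right : K₂ ≤ K₁ ⊔ K₂) ha)]
  | neg x _ hx =>
    obtain ⟨K₁, hK₁, h₁⟩ := hx
    exact ⟨K₁, hK₁, fun σ hσ => by rw [map_neg, h₁ σ hσ]⟩
  | inv x _ hx =>
    obtain ⟨K₁, hK₁, h₁⟩ := hx
    exact ⟨K₁, hK₁, fun σ hσ => by rw [map_inv₀, h₁ σ hσ]⟩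
  | mul x y _ _ hx hy =>
    obtain ⟨K₁, hK₁, h₁⟩ := hx
    obtain ⟨K₂, hK₂, h₂⟩ := hy
    refine ⟨K₁ ⊔ K₂, IntermediateField.finiteDimensional_sup K₁ K₂, fun σ hσ => ?_⟩
    rw [map_mul, h₁ σ fun a ha => hσ a ((le_sup_left : K₁ ≤ K₁ ⊔ K₂) ha),
      h₂ σ fun a ha => hσ a ((le_sup_right : K₂ ≤ K₁ ⊔ K₂) ha)]

/-- Version for elements of the field `ℚ̄ · F₀` with the `arithmeticGalois` action. -/
theorem exists_fixing_field' (f : laurentBaseChange Qb F₀) :
    ∃ K : IntermediateField ℚ Qb, FiniteDimensional ℚ K ∧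
      ∀ σ : GQ, (∀ a ∈ K, σ a = a) → arithmeticGalois F₀ σ • f = f := by
  obtain ⟨K, hK, h⟩ := exists_fixing_field F₀ f.2
  exact ⟨K, hK, fun σ hσ => Subtype.ext (by rw [coe_arithmeticGalois_smul]; exact h σ hσ)⟩

/-! ### Step 2: every place is the unique pole of a function -/

section Pole

variable {K F : Type*} [Field K] [Field F] [Algebra K F] [FF1 K F]

/-- Riemann: every place `P` is the only pole of some function. -/
theorem exists_pole_function (P : Place K F) :
    ∃ f : F, f ≠ 0 ∧ P.ord f < 0 ∧ ∀ v : Place K F, v ≠ P → 0 ≤ v.ord f := by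
  classical
  set n : ℕ := genusR K F + 1 with hn
  set D : Divisor K F := (n : ℤ) • prim P with hD
  have hdeg : Divisor.degree D = n := by
    rw [hD, map_zsmul, degree_prim P (deg_eq_one P)]
    simp
  have h2 : 2 ≤ ell D := by
    have := riemann_inequality D
    rw [hdeg] at this
    have : (2 : ℤ) ≤ ell D := by rw [hn] at this; push_cast at this; omega
    exact_mod_cast this
  have h0D : (0 : Divisor K F) ≤ D := by
    rw [hD]
    intro v
    simp only [Finsupp.coe_zero, Pi.zero_apply, Finsupp.coe_smul, Pi.smul_apply, smul_eq_mul]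
    by_cases hv : v = P
    · subst hv
      simp [prim]
    · rw [prim_apply_of_ne hv]
      simp
  -- `L(D) ≠ L(0)`
  have hne : riemannRochSpace D ≠ riemannRochSpace (0 : Divisor K F) := by
    intro h
    have : ell D = ell (0 : Divisor K F) := by unfold ell; rw [h]
    rw [ell_zero] at this
    omega
  have hle : riemannRochSpace (0 : Divisor K F) ≤ riemannRochSpace D := L_mono h0D
  obtain ⟨f, hfD, hf0⟩ : ∃ f, f ∈ riemannRochSpace D ∧ f ∉ riemannRochSpace (0 : Divisor K F) := by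
    by_contra hcon
    refine hne (le_antisymm (fun f hf => ?_) hle)
    by_contra hf'
    exact hcon ⟨f, hf, hf'⟩
  have hfne : f ≠ 0 := by
    rintro rfl
    exact hf0 (Submodule.zero_mem _)
  have hv : ∀ v : Place K F, v ≠ P → 0 ≤ v.ord f := by
    intro v hv
    have := (mem_L_iff.mp hfD v).resolve_left hfne
    rw [hD] at this
    simp only [Finsupp.coe_smul, Pi.smul_apply, smul_eq_mul, prim_apply_of_ne hv, mul_zero,
      neg_zero] at this
    exact this
  refine ⟨f, hfne, ?_, hv⟩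
  by_contra hP'
  have hP : 0 ≤ P.ord f := not_lt.mp hP'
  apply hf0
  rw [mem_L_iff]
  intro v
  right
  by_cases hvP : v = P
  · subst hvP
    simpa using hP
  · simpa using hv v hvP

end Pole

/-! ### Step 3: places, divisors and classes -/

section Stab

variable [FF1 Qb (laurentBaseChange Qb F₀)]

/-- Every place of `ℚ̄ · F₀` is fixed by `Gal(ℚ̄/K)` for a number field `K`. -/
theorem exists_field_fixing_place (P : Place Qb (laurentBaseChange Qb F₀)) :
    ∃ K : IntermediateField ℚ Qb, FiniteDimensional ℚ K ∧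
      ∀ σ : GQ, (∀ a ∈ K, σ a = a) → arithmeticGalois F₀ σ • P = P := by
  obtain ⟨f, -, hP, hv⟩ := exists_pole_function P
  obtain ⟨K, hK, hσf⟩ := exists_fixing_field' F₀ f
  refine ⟨K, hK, fun σ hσ => ?_⟩
  by_contra hne
  have h1 := hv _ hne
  have h2 := SemilinearAut.ord_smul (arithmeticGalois F₀ σ) P f
  rw [hσf σ hσ] at h2
  omega

/-- Every divisor of `ℚ̄ · F₀` is fixed by `Gal(ℚ̄/K)` for a number field `K`. -/
theorem exists_field_fixing_divisor (D : Divisor Qb (laurentBaseChange Qb F₀)) :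
    ∃ K : IntermediateField ℚ Qb, FiniteDimensional ℚ K ∧
      ∀ σ : GQ, (∀ a ∈ K, σ a = a) → arithmeticGalois F₀ σ • D = D := by
  induction D using Finsupp.induction with
  | zero => exact ⟨⊥, inferInstance, fun σ _ => smul_zero _⟩
  | single_add v n D _ _ ih =>
    obtain ⟨K₁, hK₁, h₁⟩ := exists_field_fixing_place F₀ v
    obtain ⟨K₂, hK₂, h₂⟩ := ih
    refine ⟨K₁ ⊔ K₂, IntermediateField.finiteDimensional_sup K₁ K₂, fun σ hσ => ?_⟩
    rw [smul_add, SemilinearAut.smul_single,
      h₁ σ fun a ha => hσ a ((le_sup_left : K₁ ≤ K₁ ⊔ K₂) ha),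
      h₂ σ fun a ha => hσ a ((le_sup_right : K₂ ≤ K₁ ⊔ K₂) ha)]

/-- **BASE-1, abstract form.** Every class of `Pic⁰(ℚ̄ · F₀)` is fixed by `Gal(ℚ̄/K)` for a number
field `K`. -/
theorem stabilizer_open_of_ff1 (x : Pic0 Qb (laurentBaseChange Qb F₀)) :
    ∃ K : IntermediateField ℚ Qb, FiniteDimensional ℚ K ∧
      ∀ σ : GQ, (∀ a ∈ K, σ a = a) → σ • x = x := by
  obtain ⟨D, rfl⟩ := Pic0.mk_surjective x
  obtain ⟨K, hK, h⟩ := exists_field_fixing_divisor F₀ (D : Divisor Qb (laurentBaseChange Qb F₀))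
  refine ⟨K, hK, fun σ hσ => ?_⟩
  rw [galois_smul_pic0_def, SemilinearAut.pic0_smul_mk]
  congr 1
  exact Subtype.ext (by rw [SemilinearAut.coe_degZeroSMulHom]; exact h σ hσ)

end Stab

end Fermat.Agent.S17.H77
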