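import Fermat.Agent.S17.H736.TopData
import Fermat.Agent.S17.H77.TopNC

/-!
# S17 / tower H, TOP-GLUE leaf T-NC for the canonical data `H736.TopInput` (helper77)

`theorem northcott736 (T : H736.TopInput N) : T.NorthcottStatement`
(Northcott for effective Galois-invariant divisors of bounded degree and bounded naive height),
from the cycle construction of `S17/H77/TopNC.lean` and `H50.northcott_cycle_abs`.
-/

set_option autoImplicit false
set_option linter.unusedSectionVars false

noncomputable section

open AlgebraicCurve ModularCurve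

namespace Fermat.Agent.S17.H77

open Fermat.Agent.Lib.RR Fermat.Agent.S17.H680 Fermat.Agent.S17.HWall
open Fermat.Agent.S17.HContract

/-- **T-NC** for the canonical TOP data of helper736. -/
theorem northcott736 {N : ℕ} [NeZero N] (T : Fermat.Agent.S17.H736.TopInput N) :
    T.NorthcottStatement := by
  intro e B
  have hfin := H50.northcott_cycle_abs (ι := Fin (T.E₂.r + 1)) e B
  refine Set.Finite.of_finite_image (f := fun D : Fermat.Agent.S17.H736.Dv N =>
    cyc T.E₂ D.1) (hfin.subset ?_) ?_
  · rintro _ ⟨D, ⟨hdeg, hN⟩, rfl⟩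
    refine ⟨?_, isGStable_cyc T.E₂ T.x_fixed T.isInvariant_vinf₂ D.isInvariant,
      cyc_normalised T.E₂ _, ?_⟩
    · have h1 := card_cyc T.E₂ D.nonneg
      have h2 := Fermat.Agent.S17.H736.coe_degHom D
      have h3 : ((cyc T.E₂ D.1).card : ℤ) = (Fermat.Agent.S17.H736.degHom N D : ℕ) := by
        rw [h1, h2]
      have h4 : (cyc T.E₂ D.1).card = Fermat.Agent.S17.H736.degHom N D := by
        exact_mod_cast h3
      rw [h4]
      exact hdeg
    · rw [cycAbs_cyc T.E₂ D.nonneg]
      exact hN
  · intro D _ D' _ h
    exact Subtype.ext (cyc_injOn T.E₂ D.nonneg D'.nonneg h)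

end Fermat.Agent.S17.H77
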